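import Mathlib
import Fermat.Agent.MUL.S17.H.Imm
import Fermat.Agent.MUL.Orig.S17.Pts.Eval

section MergeWrap_S17_H_ImmCoord -- from S17/H/ImmCoord.lean

set_option autoImplicit false

/-!
# S17, package H, seat L3 (IMM): consequences in coordinates

`h : IsRRField K F`, `D` a divisor of degree `≥ 2g + 1`, `φ : ι → F` a finite family spanning
`L(D)`.  For a place `P` and an index `a0` with `ord_P (φ a0) = -D P` (it exists:
`imm_exists_index`) the coordinates of `P` are `c a = ev P (φ a / φ a0)`.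

* `immEval`                  : the linear form `f ↦ ev P (f / φ0)` on `L(D)`;
* `immEval_eq_zero_iff`      : its kernel is `L(D - P)`;
* `imm_exists_index`         : some `φ a0` has the minimal order `-D P` at `P`;
* `imm_exists_minor_ne_zero` : for `P ≠ Q` some `2 × 2` minor of `(coord P, coord Q)` is not `0`;
* `imm_exists_simple_coord`  : some `φ a - c a • φ a0` has a simple zero at `P` relative to `φ a0`.
-/

noncomputable section

open AlgebraicCurve Fermat.Agent.RR

namespace Fermat.Agent.S17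

variable {K F : Type*} [Field K] [Field F] [Algebra K F]

theorem imm_ord_div (P : Place K F) {f φ0 : F} (hf : f ≠ 0) (hφ0 : φ0 ≠ 0) :
    P.ord (f / φ0) = P.ord f - P.ord φ0 := by
  rw [div_eq_mul_inv, P.ord_mul hf (inv_ne_zero hφ0), P.ord_inv]
  ring

theorem imm_ord_div_nonneg {D : Divisor K F} {P : Place K F} {f φ0 : F}
    (hf : f ∈ riemannRochSpace D) (hφ0 : φ0 ≠ 0) (hord : P.ord φ0 = -D P) :
    0 ≤ P.ord (f / φ0) := by
  rcases eq_or_ne f 0 with rfl | hf0
  · rw [zero_div, P.ord_zero]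
  · rw [imm_ord_div P hf0 hφ0, hord]
    have := ((mem_riemannRochSpace_iff.mp hf) P).resolve_left hf0
    linarith

theorem imm_mem_sub_single_iff {D : Divisor K F} {P : Place K F} {f : F}
    (hf : f ∈ riemannRochSpace D) :
    f ∈ riemannRochSpace (D - Finsupp.single P 1) ↔ f = 0 ∨ -D P + 1 ≤ P.ord f := by
  constructor
  · intro hmem
    rcases eq_or_ne f 0 with rfl | hf0
    · exact Or.inl rfl
    · right
      have := ((mem_riemannRochSpace_iff.mp hmem) P).resolve_left hf0
      rw [Finsupp.sub_apply, Finsupp.single_eq_same] at this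
      linarith
  · intro hP
    refine mem_of_mem_add_single (P := P) (by rwa [imm_sub_add_single]) ?_
    rcases hP with hP | hP
    · exact Or.inl hP
    · right
      rw [Finsupp.sub_apply, Finsupp.single_eq_same]
      linarith

/-- the linear form `f ↦ (f / φ0)(P)` on `L(D)`, for `φ0` of order `-D P` at `P`. -/
def immEval (h : IsRRField K F) (D : Divisor K F) (P : Place K F) (φ0 : F) (hφ0 : φ0 ≠ 0)
    (hord : P.ord φ0 = -D P) : riemannRochSpace D →ₗ[K] K where
  toFun f := Pts.ev P ((f : F) / φ0)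
  map_add' f g := by
    show Pts.ev P (((f : F) + (g : F)) / φ0) = _
    rw [add_div]
    exact Pts.ev_add h P (imm_ord_div_nonneg f.2 hφ0 hord) (imm_ord_div_nonneg g.2 hφ0 hord)
  map_smul' c f := by
    show Pts.ev P ((c • (f : F)) / φ0) = c • Pts.ev P ((f : F) / φ0)
    rw [smul_div_assoc]
    exact Pts.ev_smul_const h P c (imm_ord_div_nonneg f.2 hφ0 hord)

theorem immEval_apply (h : IsRRField K F) (D : Divisor K F) (P : Place K F) (φ0 : F)
    (hφ0 : φ0 ≠ 0) (hord : P.ord φ0 = -D P) (f : riemannRochSpace D) :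
    immEval h D P φ0 hφ0 hord f = Pts.ev P ((f : F) / φ0) := rfl

/-- the kernel of `immEval` is `L(D - P)`. -/
theorem immEval_eq_zero_iff (h : IsRRField K F) (D : Divisor K F) (P : Place K F) (φ0 : F)
    (hφ0 : φ0 ≠ 0) (hord : P.ord φ0 = -D P) (f : riemannRochSpace D) :
    immEval h D P φ0 hφ0 hord f = 0 ↔ (f : F) ∈ riemannRochSpace (D - Finsupp.single P 1) := by
  rw [immEval_apply, imm_mem_sub_single_iff f.2]
  rcases eq_or_ne (f : F) 0 with hf0 | hf0
  · rw [hf0, zero_div, Pts.ev_zero]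
    exact ⟨fun _ => Or.inl rfl, fun _ => rfl⟩
  · have hne : (f : F) / φ0 ≠ 0 := div_ne_zero hf0 hφ0
    rw [Pts.ev_eq_zero_iff h P hne (imm_ord_div_nonneg f.2 hφ0 hord), imm_ord_div P hf0 hφ0, hord]
    constructor
    · intro hpos
      right
      linarith
    · rintro (h0 | hle)
      · exact absurd h0 hf0
      · linarith

section family

variable {ι : Type*} [Fintype ι]

/-- Some member of a spanning family of `L(D)` has the minimal order `-D P` at `P`. -/
theorem imm_exists_index (h : IsRRField K F) (D : Divisor K F) (P : Place K F)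
    (hD : 2 * (genusFF K F : ℤ) ≤ Divisor.degree D) (φ : ι → F)
    (hspan : Submodule.span K (Set.range φ) = riemannRochSpace D) :
    ∃ a0, φ a0 ≠ 0 ∧ P.ord (φ a0) = -D P := by
  by_contra hcon
  push Not at hcon
  have hmem : ∀ a, φ a ∈ riemannRochSpace D := fun a => by
    rw [← hspan]
    exact Submodule.subset_span ⟨a, rfl⟩
  have hall : ∀ a, φ a ∈ riemannRochSpace (D - Finsupp.single P 1) := by
    intro a
    rw [imm_mem_sub_single_iff (hmem a)]
    rcases eq_or_ne (φ a) 0 with h0 | h0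
    · exact Or.inl h0
    · right
      have h1 := ((mem_riemannRochSpace_iff.mp (hmem a)) P).resolve_left h0
      have h2 := hcon a h0
      omega
  have hle : riemannRochSpace D ≤ riemannRochSpace (D - Finsupp.single P 1) := by
    rw [← hspan, Submodule.span_le]
    rintro _ ⟨a, rfl⟩
    exact hall a
  obtain ⟨f, hf, hf0, hfo⟩ := imm_exists_ord_eq h D P hD
  have := (imm_mem_sub_single_iff hf).mp (hle hf)
  rcases this with h0 | h1
  · exact hf0 h0
  · omega

/-- writing an element of `L(D)` in a spanning family, inside `L(D)`. -/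
theorem imm_exists_coeffs (D : Divisor K F) (φ : ι → F)
    (hspan : Submodule.span K (Set.range φ) = riemannRochSpace D)
    (hmem : ∀ a, φ a ∈ riemannRochSpace D) (f : riemannRochSpace D) :
    ∃ x : ι → K, f = ∑ a, x a • (⟨φ a, hmem a⟩ : riemannRochSpace D) := by
  have hf : (f : F) ∈ Submodule.span K (Set.range φ) := by
    rw [hspan]
    exact f.2
  obtain ⟨x, hx⟩ := (Submodule.mem_span_range_iff_exists_fun K).mp hf
  refine ⟨x, Subtype.ext ?_⟩
  rw [← hx, Submodule.coe_sum]
  rfl

/-- Points are separated, in coordinates: for `P ≠ Q` some `2 × 2` minor of the matrix of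
coordinates of `P` and `Q` does not vanish. -/
theorem imm_exists_minor_ne_zero (h : IsRRField K F) (D : Divisor K F) {P Q : Place K F}
    (hPQ : P ≠ Q) (hD : 2 * (genusFF K F : ℤ) + 1 ≤ Divisor.degree D) (φ : ι → F)
    (hspan : Submodule.span K (Set.range φ) = riemannRochSpace D)
    (a0 b0 : ι) (ha0 : φ a0 ≠ 0) (hPa0 : P.ord (φ a0) = -D P)
    (hb0 : φ b0 ≠ 0) (hQb0 : Q.ord (φ b0) = -D Q) :
    ∃ a b, Pts.ev P (φ a / φ a0) * Pts.ev Q (φ b / φ b0)
        - Pts.ev P (φ b / φ a0) * Pts.ev Q (φ a / φ b0) ≠ 0 := by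
  have hmem : ∀ a, φ a ∈ riemannRochSpace D := fun a => by
    rw [← hspan]
    exact Submodule.subset_span ⟨a, rfl⟩
  obtain ⟨f, hf, hf0, hfP, hfQ⟩ := imm_exists_separating h D hPQ hD
  obtain ⟨x, hx⟩ := imm_exists_coeffs D φ hspan hmem ⟨f, hf⟩
  -- the two linear forms
  have hP0 : immEval h D P (φ a0) ha0 hPa0 ⟨f, hf⟩ = 0 := by
    rw [immEval_eq_zero_iff, imm_mem_sub_single_iff hf]
    exact Or.inr hfP
  have hQ0 : immEval h D Q (φ b0) hb0 hQb0 ⟨f, hf⟩ ≠ 0 := by
    rw [Ne, immEval_eq_zero_iff, imm_mem_sub_single_iff hf]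
    rintro (h0 | h1)
    · exact hf0 h0
    · change -D Q + 1 ≤ Q.ord f at h1
      omega
  rw [hx, map_sum] at hP0 hQ0
  simp only [map_smul, immEval_apply, smul_eq_mul] at hP0 hQ0
  by_contra hcon
  push Not at hcon
  -- coordinates of `P` at `a0` equal `1`
  have hone : Pts.ev P (φ a0 / φ a0) = 1 := by
    rw [div_self ha0, Pts.ev_one]
  have hprop : ∀ b, Pts.ev Q (φ b / φ b0)
      = Pts.ev P (φ b / φ a0) * Pts.ev Q (φ a0 / φ b0) := by
    intro b
    have := hcon a0 b
    rw [hone, one_mul, sub_eq_zero] at this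
    exact this
  apply hQ0
  calc ∑ a, x a * Pts.ev Q (φ a / φ b0)
      = ∑ a, (x a * Pts.ev P (φ a / φ a0)) * Pts.ev Q (φ a0 / φ b0) := by
        refine Finset.sum_congr rfl fun a _ => ?_
        rw [hprop a]
        ring
    _ = (∑ a, x a * Pts.ev P (φ a / φ a0)) * Pts.ev Q (φ a0 / φ b0) := by
        rw [Finset.sum_mul]
    _ = 0 := by rw [hP0, zero_mul]

/-- Tangent vectors are separated, in coordinates: some `φ a - c a • φ a0`, `c = coord P`, has a
simple zero at `P` relative to `φ a0`. -/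
theorem imm_exists_simple_coord (h : IsRRField K F) (D : Divisor K F) (P : Place K F)
    (hD : 2 * (genusFF K F : ℤ) + 1 ≤ Divisor.degree D) (φ : ι → F)
    (hspan : Submodule.span K (Set.range φ) = riemannRochSpace D)
    (a0 : ι) (ha0 : φ a0 ≠ 0) (hPa0 : P.ord (φ a0) = -D P) :
    ∃ a, φ a - Pts.ev P (φ a / φ a0) • φ a0 ≠ 0 ∧
      P.ord ((φ a - Pts.ev P (φ a / φ a0) • φ a0) / φ a0) = 1 := by
  have hmem : ∀ a, φ a ∈ riemannRochSpace D := fun a => by
    rw [← hspan]
    exact Submodule.subset_span ⟨a, rfl⟩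
  -- the elements `l a = φ a - c a • φ a0` of `L(D - P)`
  have hlmem : ∀ a, φ a - Pts.ev P (φ a / φ a0) • φ a0 ∈ riemannRochSpace D := fun a =>
    Submodule.sub_mem _ (hmem a) (Submodule.smul_mem _ _ (hmem a0))
  have hone : Pts.ev P (φ a0 / φ a0) = 1 := by
    rw [div_self ha0, Pts.ev_one]
  have hl1 : ∀ a, φ a - Pts.ev P (φ a / φ a0) • φ a0
      ∈ riemannRochSpace (D - Finsupp.single P 1) := by
    intro a
    have := (immEval_eq_zero_iff h D P (φ a0) ha0 hPa0 ⟨_, hlmem a⟩).mp (by
      have e : (⟨φ a - Pts.ev P (φ a / φ a0) • φ a0, hlmem a⟩ : riemannRochSpace D)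
          = ⟨φ a, hmem a⟩ - Pts.ev P (φ a / φ a0) • ⟨φ a0, hmem a0⟩ := rfl
      rw [e, map_sub, map_smul, immEval_apply, immEval_apply, hone, smul_eq_mul, mul_one,
        sub_self])
    exact this
  by_contra hcon
  push Not at hcon
  -- then every `l a` is in `L(D - 2P)`
  have hl2 : ∀ a, φ a - Pts.ev P (φ a / φ a0) • φ a0
      ∈ riemannRochSpace (D - Finsupp.single P 1 - Finsupp.single P 1) := by
    intro a
    rw [imm_mem_sub_single_iff (hl1 a)]
    rcases eq_or_ne (φ a - Pts.ev P (φ a / φ a0) • φ a0) 0 with h0 | h0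
    · exact Or.inl h0
    · right
      have h1 := (imm_mem_sub_single_iff (hlmem a)).mp (hl1 a)
      have h1' := h1.resolve_left h0
      have h2 := hcon a h0
      rw [imm_ord_div P h0 ha0, hPa0] at h2
      rw [Finsupp.sub_apply, Finsupp.single_eq_same]
      omega
  obtain ⟨f, hf, hf0, hfo⟩ := imm_exists_simple h D P hD
  obtain ⟨x, hx⟩ := imm_exists_coeffs D φ hspan hmem ⟨f, hf⟩
  have hfP : f ∈ riemannRochSpace (D - Finsupp.single P 1) := by
    rw [imm_mem_sub_single_iff hf]
    exact Or.inr (le_of_eq hfo.symm)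
  have hP0 : immEval h D P (φ a0) ha0 hPa0 ⟨f, hf⟩ = 0 :=
    (immEval_eq_zero_iff h D P (φ a0) ha0 hPa0 ⟨f, hf⟩).mpr hfP
  rw [hx, map_sum] at hP0
  simp only [map_smul, immEval_apply, smul_eq_mul] at hP0
  -- `f = Σ x a • l a`
  have hfsum : f = ∑ a, x a • (φ a - Pts.ev P (φ a / φ a0) • φ a0) := by
    have h1 : f = ∑ a, x a • φ a := by
      have := congrArg (fun g : riemannRochSpace D => (g : F)) hx
      simp only [Submodule.coe_sum, Submodule.coe_smul] at this
      exact this
    have h2 : ∑ a, x a • (φ a - Pts.ev P (φ a / φ a0) • φ a0)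
        = ∑ a, x a • φ a - (∑ a, x a * Pts.ev P (φ a / φ a0)) • φ a0 := by
      rw [Finset.sum_smul, ← Finset.sum_sub_distrib]
      refine Finset.sum_congr rfl fun a _ => ?_
      rw [smul_sub, smul_smul]
    rw [h2, hP0, zero_smul, sub_zero]
    exact h1
  have hf2 : f ∈ riemannRochSpace (D - Finsupp.single P 1 - Finsupp.single P 1) := by
    rw [hfsum]
    exact Submodule.sum_mem _ fun a _ => Submodule.smul_mem _ _ (hl2 a)
  have := (imm_mem_sub_single_iff hfP).mp hf2
  rcases this with h0 | h1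
  · exact hf0 h0
  · rw [Finsupp.sub_apply, Finsupp.single_eq_same] at h1
    omega

end family

end Fermat.Agent.S17
end
end MergeWrap_S17_H_ImmCoord
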