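import Mathlib
import Fermat.Prelude.Def_AlgebraicCurve_BaseChangeGalois
import Fermat.Agent.MUL.S17.H.Imm
import Fermat.Agent.MUL.Lib.RR.NonSpecial
import Fermat.Agent.MUL.Orig.S17.Interfaces
import Fermat.Agent.MUL.Lib.RR.OfModularBar
import Fermat.Agent.MUL.S17.H.Curve

section MergeWrap_S17_H_Move -- from S17/H/Move.lean

set_option autoImplicit false
set_option linter.unusedSectionVars false
set_option linter.style.haveILetI false

/-!
# S17, package H, seat G3 (MOVE): canonical and movable representatives of a fixed class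

Generic setting: `h : IsRRField K F`, `Γ` a subgroup of `SemilinearAut K F` (for S17: the image
of `G_ℚ`), `P0` a `Γ`-fixed place (the cusp `∞`), `x : Pic0 K F` a `Γ`-fixed class, `g` the genus.

* `Move.Rep D x`            : `D` is a divisor of degree `0` in the class `x`.
* `Move.exists_canonical`   : (G3a) there are `d ≤ g` and a UNIQUE effective divisor `A` of
                              degree `d` with `A - d P0 ∈ x`; `d` is minimal, `A` is `Γ`-stable,
                              `P0 ∉ A`, `ℓ(A) = 1`.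
* `Move.GenericFixed Γ`     : the input from package RAT (iv): a `Γ`-stable finite dimensional
                              subspace of `F` has a `Γ`-fixed vector outside finitely many
                              subspaces that do not contain it.
* `Move.exists_fixed_section`: a `Γ`-stable divisor `B` of degree `≥ 2g` has a `Γ`-fixed
                              `f ∈ L(B)` with `B + div f ≥ 0` avoiding a given finite set.
* `Move.exists_moving`      : (G3b) `x = [A' - Z]`, `A'`, `Z` effective, `Γ`-stable, of the same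
                              degree `≤ 3g`, with disjoint supports, avoiding a given finite set.
-/

noncomputable section

open AlgebraicCurve Fermat.Agent.RR

namespace Fermat.Agent.S17.Move

variable {K F : Type*} [Field K] [Field F] [Algebra K F]

/-! ### representatives of a class -/

/-- `D` is a divisor of degree zero in the class `x`. -/
def Rep (D : Divisor K F) (x : Pic0 K F) : Prop :=
  ∃ hD : D ∈ Divisor.degZero (K := K) (F := F), Pic0.mk ⟨D, hD⟩ = x

theorem exists_rep (x : Pic0 K F) : ∃ D : Divisor K F, Rep D x := by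
  obtain ⟨D, rfl⟩ := Pic0.mk_surjective x
  exact ⟨D, D.2, rfl⟩

theorem Rep.degree_eq {D : Divisor K F} {x : Pic0 K F} (hD : Rep D x) :
    Divisor.degree D = 0 :=
  Divisor.mem_degZero.mp hD.1

/-- two representatives of the same class differ by a principal divisor. -/
theorem Rep.sub_mem_principal {D D' : Divisor K F} {x : Pic0 K F} (hD : Rep D x)
    (hD' : Rep D' x) : D' - D ∈ Divisor.principal (K := K) (F := F) := by
  obtain ⟨h1, e1⟩ := hD
  obtain ⟨h2, e2⟩ := hD'
  have e : (QuotientAddGroup.mk (⟨D, h1⟩ : Divisor.degZero (K := K) (F := F)) :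
      Pic0 K F) = QuotientAddGroup.mk ⟨D', h2⟩ := e1.trans e2.symm
  have h3 := QuotientAddGroup.eq.mp e
  rw [AddSubgroup.mem_addSubgroupOf] at h3
  have h4 : ((-(⟨D, h1⟩ : Divisor.degZero (K := K) (F := F)) + ⟨D', h2⟩ :
      Divisor.degZero (K := K) (F := F)) : Divisor K F) = D' - D := by
    show -D + D' = D' - D
    abel
  rwa [h4] at h3

/-- adding a principal divisor of degree zero does not change the class. -/
theorem Rep.add_principal {D E : Divisor K F} {x : Pic0 K F} (hD : Rep D x)
    (hE : E ∈ Divisor.principal (K := K) (F := F)) (hE0 : Divisor.degree E = 0) :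
    Rep (D + E) x := by
  obtain ⟨h1, e1⟩ := hD
  have h2 : D + E ∈ Divisor.degZero (K := K) (F := F) := by
    rw [Divisor.mem_degZero, map_add, Divisor.mem_degZero.mp h1, hE0, add_zero]
  refine ⟨h2, ?_⟩
  rw [← e1]
  show (QuotientAddGroup.mk (⟨D + E, h2⟩ : Divisor.degZero (K := K) (F := F)) : Pic0 K F)
    = QuotientAddGroup.mk ⟨D, h1⟩
  rw [QuotientAddGroup.eq, AddSubgroup.mem_addSubgroupOf]
  have h4 : ((-(⟨D + E, h2⟩ : Divisor.degZero (K := K) (F := F)) + ⟨D, h1⟩ :
      Divisor.degZero (K := K) (F := F)) : Divisor K F) = -E := by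
    show -(D + E) + D = -E
    abel
  rw [h4]
  exact neg_mem hE

theorem divOf_mem_principal (h : IsRRField K F) {f : F} (hf : f ≠ 0) :
    divOf h f ∈ Divisor.principal (K := K) (F := F) :=
  ⟨f, hf, fun v => divOf_apply h f v⟩

/-- a principal divisor is the divisor of a function. -/
theorem exists_divOf_of_mem_principal (h : IsRRField K F) {E : Divisor K F}
    (hE : E ∈ Divisor.principal (K := K) (F := F)) : ∃ f : F, f ≠ 0 ∧ E = divOf h f := by
  obtain ⟨f, hf, hfE⟩ := hE
  refine ⟨f, hf, ?_⟩
  ext v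
  rw [hfE v, divOf_apply]

theorem Rep.add_divOf (h : IsRRField K F) {D : Divisor K F} {x : Pic0 K F} (hD : Rep D x)
    {f : F} (hf : f ≠ 0) : Rep (D + divOf h f) x :=
  hD.add_principal (divOf_mem_principal h hf) (degree_divOf h f)

theorem Rep.sub_divOf (h : IsRRField K F) {D : Divisor K F} {x : Pic0 K F} (hD : Rep D x)
    {f : F} (hf : f ≠ 0) : Rep (D - divOf h f) x := by
  have := hD.add_divOf h (inv_ne_zero hf)
  rwa [divOf_inv, ← sub_eq_add_neg] at this

/-- the action of a semilinear automorphism on representatives. -/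
theorem Rep.smul (g : SemilinearAut K F) {D : Divisor K F} {x : Pic0 K F} (hD : Rep D x) :
    Rep (g • D) (g • x) := by
  obtain ⟨h1, e1⟩ := hD
  refine ⟨SemilinearAut.smul_mem_degZero g h1, ?_⟩
  rw [← e1, SemilinearAut.pic0_smul_mk]
  rfl

/-! ### the action on principal divisors and on Riemann-Roch spaces -/

theorem smul_divOf (h : IsRRField K F) (g : SemilinearAut K F) (f : F) :
    g • divOf h f = divOf h (g • f) := by
  ext w
  rw [SemilinearAut.divisor_smul_apply, divOf_apply, divOf_apply]
  have := SemilinearAut.ord_smul g (g⁻¹ • w) f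
  rw [smul_inv_smul] at this
  exact this.symm

theorem smul_nonneg_divisor (g : SemilinearAut K F) {D : Divisor K F} (hD : 0 ≤ D) :
    0 ≤ g • D := by
  rw [Finsupp.le_def]
  intro w
  rw [SemilinearAut.divisor_smul_apply]
  exact Finsupp.le_def.mp hD _

theorem smul_mem_riemannRochSpace (g : SemilinearAut K F) {D : Divisor K F} {f : F}
    (hf : f ∈ riemannRochSpace D) : g • f ∈ riemannRochSpace (g • D) := by
  rw [mem_riemannRochSpace_iff] at hf ⊢
  intro w
  rcases hf (g⁻¹ • w) with h0 | h1
  · left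
    rw [h0, smul_zero]
  · right
    rw [SemilinearAut.divisor_smul_apply]
    have := SemilinearAut.ord_smul g (g⁻¹ • w) f
    rw [smul_inv_smul] at this
    rw [this]
    exact h1

/-! ### G3a: the canonical divisor of a class -/

theorem single_succ (P0 : Place K F) (m : ℕ) :
    (Finsupp.single P0 ((m + 1 : ℕ) : ℤ) : Divisor K F)
      = Finsupp.single P0 (m : ℤ) + Finsupp.single P0 1 := by
  rw [← Finsupp.single_add]
  push_cast
  rfl

theorem degree_single_nat (h : IsRRField K F) (P0 : Place K F) (m : ℕ) :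
    Divisor.degree (Finsupp.single P0 (m : ℤ) : Divisor K F) = m := by
  rw [Divisor.degree_single, h.deg_one]
  simp

theorem ell_pos_of_ne_bot (h : IsRRField K F) {D : Divisor K F}
    (hD : riemannRochSpace D ≠ ⊥) : 1 ≤ ell D := by
  haveI := finite_riemannRochSpace h D
  rw [ell_def]
  by_contra hlt
  have h0 : Module.finrank K (riemannRochSpace D) = 0 := by omega
  exact hD (Submodule.finrank_eq_zero.mp h0)

theorem ne_bot_of_ell_pos {D : Divisor K F} (hD : 1 ≤ ell D) : riemannRochSpace D ≠ ⊥ := by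
  intro hbot
  rw [ell_def, hbot, finrank_bot] at hD
  omega

/-- effective divisors in the class of `D0 + d P0` are `D0 + d P0 + div f`, `f ∈ L(D0 + d P0)`. -/
theorem nonneg_add_divOf_iff (h : IsRRField K F) (D : Divisor K F) {f : F} (hf : f ≠ 0) :
    0 ≤ D + divOf h f ↔ f ∈ riemannRochSpace D := by
  rw [mem_riemannRochSpace_iff_le h hf]
  constructor
  · intro h1
    have : -D ≤ -D + (D + divOf h f) := le_add_of_nonneg_right h1
    simpa using this
  · intro h1
    have : D + -D ≤ D + divOf h f := add_le_add_right h1 D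
    simpa using this

/-- **G3a.** The canonical divisor of a `Γ`-fixed class: `d ≤ g` minimal with `|x + d P0| ≠ ∅`
and the unique effective divisor `A` of degree `d` in the class `x + d P0`. -/
theorem exists_canonical (h : IsRRField K F) (Γ : Subgroup (SemilinearAut K F))
    (P0 : Place K F) (hP0 : ∀ g ∈ Γ, g • P0 = P0)
    (x : Pic0 K F) (hx : ∀ g ∈ Γ, g • x = x) :
    ∃ (d : ℕ) (A : Divisor K F), d ≤ genusFF K F ∧ 0 ≤ A ∧ Divisor.degree A = d ∧ A P0 = 0 ∧
      ell A = 1 ∧ Rep (A - Finsupp.single P0 (d : ℤ)) x ∧ (∀ g ∈ Γ, g • A = A) ∧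
      ∀ (d' : ℕ) (A' : Divisor K F), 0 ≤ A' → Rep (A' - Finsupp.single P0 (d' : ℤ)) x →
        d ≤ d' ∧ (d' = d → A' = A) := by
  classical
  obtain ⟨D0, hD0⟩ := exists_rep x
  have hdeg0 := hD0.degree_eq
  -- the set of `d` with `L(D0 + d P0) ≠ 0` contains `g`
  have hg : riemannRochSpace (D0 + Finsupp.single P0 ((genusFF K F : ℕ) : ℤ)) ≠ ⊥ := by
    apply ne_bot_of_ell_pos
    have := riemann_inequality h (D0 + Finsupp.single P0 ((genusFF K F : ℕ) : ℤ))
    rw [map_add, hdeg0, degree_single_nat h] at this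
    have h2 : (1 : ℤ) ≤ (ell (D0 + Finsupp.single P0 ((genusFF K F : ℕ) : ℤ)) : ℤ) := by
      linarith
    exact_mod_cast h2
  let p : ℕ → Prop := fun d => riemannRochSpace (D0 + Finsupp.single P0 (d : ℤ)) ≠ ⊥
  have hex : ∃ d, p d := ⟨genusFF K F, hg⟩
  set d := Nat.find hex with hd_def
  have hd : p d := Nat.find_spec hex
  have hmin : ∀ m, m < d → ¬ p m := fun m hm => Nat.find_min hex hm
  have hdg : d ≤ genusFF K F := Nat.find_min' hex hg
  obtain ⟨f, hfV, hf0⟩ := Submodule.exists_mem_ne_zero_of_ne_bot hd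
  set B := D0 + Finsupp.single P0 (d : ℤ) with hB
  set A := B + divOf h f with hA
  have hA0 : 0 ≤ A := (nonneg_add_divOf_iff h B hf0).mpr hfV
  have hdegB : Divisor.degree B = d := by
    rw [hB, map_add, hdeg0, degree_single_nat h, zero_add]
  have hdegA : Divisor.degree A = d := by
    rw [hA, map_add, hdegB, degree_divOf, add_zero]
  -- `ℓ(B) = 1`
  have hellB : ell B = 1 := by
    have h1 : 1 ≤ ell B := ell_pos_of_ne_bot h hd
    have h2 : ell B ≤ 1 := by
      rcases Nat.eq_zero_or_pos d with hd0 | hdpos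
      · have := ell_le_degree_add_one h (D := B) (by rw [hdegB]; exact Int.natCast_nonneg _)
        rw [hdegB, hd0] at this
        have h3 : (ell B : ℤ) ≤ 1 := by simpa using this
        exact_mod_cast h3
      · obtain ⟨m, hm⟩ : ∃ m, d = m + 1 := ⟨d - 1, by omega⟩
        have hpm : ¬ p m := hmin m (by omega)
        have hbot : riemannRochSpace (D0 + Finsupp.single P0 (m : ℤ)) = ⊥ := not_not.mp hpm
        have hell0 : ell (D0 + Finsupp.single P0 (m : ℤ)) = 0 := by
          rw [ell_def, hbot, finrank_bot]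
        have hBm : B = D0 + Finsupp.single P0 (m : ℤ) + Finsupp.single P0 1 := by
          rw [hB, hm, single_succ, add_assoc]
        have := ell_add_single_le h (D0 + Finsupp.single P0 (m : ℤ)) P0
        rw [← hBm, hell0] at this
        simpa using this
    omega
  have hellA : ell A = 1 := by rw [hA, ell_add_divOf h B hf0, hellB]
  -- `P0 ∉ A`
  have hAP0 : A P0 = 0 := by
    by_contra hne
    have hpos : 1 ≤ A P0 := by
      have := Finsupp.le_def.mp hA0 P0
      have h0 : (0 : Divisor K F) P0 = 0 := rfl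
      rw [h0] at this
      omega
    rcases Nat.eq_zero_or_pos d with hd0 | hdpos
    · have hAz : A = 0 := eq_zero_of_nonneg_of_degree_eq_zero h hA0 (by rw [hdegA, hd0]; rfl)
      apply hne
      rw [hAz]
      rfl
    · obtain ⟨m, hm⟩ : ∃ m, d = m + 1 := ⟨d - 1, by omega⟩
      apply hmin m (by omega)
      show riemannRochSpace (D0 + Finsupp.single P0 (m : ℤ)) ≠ ⊥
      have hBm : B = D0 + Finsupp.single P0 (m : ℤ) + Finsupp.single P0 1 := by
        rw [hB, hm, single_succ, add_assoc]
      have hmem : f ∈ riemannRochSpace (D0 + Finsupp.single P0 (m : ℤ)) := by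
        rw [← nonneg_add_divOf_iff h _ hf0]
        have hAm : D0 + Finsupp.single P0 (m : ℤ) + divOf h f = A - Finsupp.single P0 1 := by
          rw [hA, hBm]
          abel
        rw [hAm, Finsupp.le_def]
        intro v
        rw [Finsupp.sub_apply]
        have h0 : (0 : Divisor K F) v = 0 := rfl
        rw [h0]
        by_cases hv : v = P0
        · rw [hv, Finsupp.single_eq_same]
          omega
        · rw [Finsupp.single_eq_of_ne hv]
          have := Finsupp.le_def.mp hA0 v
          rw [h0] at this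
          omega
      intro hbot
      rw [hbot, Submodule.mem_bot] at hmem
      exact hf0 hmem
  -- `A - d P0` represents `x`
  have hrep : Rep (A - Finsupp.single P0 (d : ℤ)) x := by
    have h1 : A - Finsupp.single P0 (d : ℤ) = D0 + divOf h f := by
      rw [hA, hB]
      abel
    rw [h1]
    exact hD0.add_divOf h hf0
  -- minimality and uniqueness
  have huniq : ∀ (d' : ℕ) (A' : Divisor K F), 0 ≤ A' →
      Rep (A' - Finsupp.single P0 (d' : ℤ)) x → d ≤ d' ∧ (d' = d → A' = A) := by
    intro d' A' hA'0 hA'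
    obtain ⟨u, hu0, hu⟩ := exists_divOf_of_mem_principal h (hD0.sub_mem_principal hA')
    have hA'eq : A' = D0 + Finsupp.single P0 (d' : ℤ) + divOf h u := by
      rw [← hu]
      abel
    have hmem : u ∈ riemannRochSpace (D0 + Finsupp.single P0 (d' : ℤ)) := by
      rw [← nonneg_add_divOf_iff h _ hu0, ← hA'eq]
      exact hA'0
    have hpd' : p d' := by
      intro hbot
      rw [hbot, Submodule.mem_bot] at hmem
      exact hu0 hmem
    refine ⟨Nat.find_min' hex hpd', fun hdd => ?_⟩
    subst hdd
    -- `A' = A + div (u / f)`, `u / f ∈ L(A)` is constant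
    have hq0 : u / f ≠ 0 := div_ne_zero hu0 hf0
    have hdiv : divOf h (u / f) = divOf h u - divOf h f := by
      rw [div_eq_mul_inv, divOf_mul h hu0 (inv_ne_zero hf0), divOf_inv, sub_eq_add_neg]
    have hA'A : A' = A + divOf h (u / f) := by
      rw [hA'eq, hA, hB, hdiv]
      abel
    have hmemA : u / f ∈ riemannRochSpace A := by
      rw [← nonneg_add_divOf_iff h _ hq0, ← hA'A]
      exact hA'0
    obtain ⟨c, hc⟩ := eq_algebraMap_of_mem_of_ell_eq_one h hA0 hellA hmemA
    have hz : divOf h (u / f) = 0 := by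
      ext v
      rw [divOf_apply, hc, Fermat.Agent.S24Res.ord_algebraMap]
      rfl
    rw [hA'A, hz, add_zero]
  refine ⟨d, A, hdg, hA0, hdegA, hAP0, hellA, hrep, ?_, huniq⟩
  -- `Γ`-stability
  intro g hgΓ
  have h1 : Rep (g • A - Finsupp.single P0 (d : ℤ)) x := by
    have := hrep.smul g
    rw [hx g hgΓ, smul_sub, SemilinearAut.smul_single, hP0 g hgΓ] at this
    exact this
  exact (huniq d (g • A) (smul_nonneg_divisor g hA0) h1).2 rfl

/-! ### G3b: movable representatives -/

/-- The input from package RAT (iv): a `Γ`-stable finite dimensional subspace of `F` has a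
`Γ`-fixed vector outside finitely many subspaces that do not contain it. -/
def GenericFixed (Γ : Subgroup (SemilinearAut K F)) : Prop :=
  ∀ V : Submodule K F, Module.Finite K V → (∀ g ∈ Γ, ∀ f ∈ V, g • f ∈ V) →
    ∀ s : Finset (Submodule K F), (∀ W ∈ s, ¬ V ≤ W) →
      ∃ f ∈ V, (∀ g ∈ Γ, g • f = f) ∧ ∀ W ∈ s, f ∉ W

/-- A `Γ`-stable divisor `B` of degree `≥ 2g` has a `Γ`-fixed section `f ≠ 0` whose divisor of
zeros `B + div f` avoids a given finite set of places. -/
theorem exists_fixed_section (h : IsRRField K F) (Γ : Subgroup (SemilinearAut K F))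
    (hRAT : GenericFixed Γ) (B : Divisor K F) (hB : ∀ g ∈ Γ, g • B = B)
    (hdeg : 2 * (genusFF K F : ℤ) ≤ Divisor.degree B) (S : Finset (Place K F)) :
    ∃ f : F, f ≠ 0 ∧ (∀ g ∈ Γ, g • f = f) ∧ 0 ≤ B + divOf h f ∧
      (∀ g ∈ Γ, g • (B + divOf h f) = B + divOf h f) ∧
      ∀ P ∈ S, (B + divOf h f) P = 0 := by
  classical
  have hstab : ∀ g ∈ Γ, ∀ f ∈ riemannRochSpace B, g • f ∈ riemannRochSpace B := by
    intro g hg f hf
    have := smul_mem_riemannRochSpace g hf
    rwa [hB g hg] at this
  let s : Finset (Submodule K F) :=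
    insert ⊥ (S.image fun P => riemannRochSpace (B - Finsupp.single P 1))
  have hs : ∀ W ∈ s, ¬ riemannRochSpace B ≤ W := by
    intro W hW hle
    rcases Finset.mem_insert.mp hW with rfl | hW
    · obtain ⟨f, hf, hf0, -⟩ := imm_exists_ord_eq h B (Classical.choice (nonempty_place h)) hdeg
      have := hle hf
      rw [Submodule.mem_bot] at this
      exact hf0 this
    · obtain ⟨P, -, rfl⟩ := Finset.mem_image.mp hW
      obtain ⟨f, hf, hf0, hord⟩ := imm_exists_ord_eq h B P hdeg
      have hmem := hle hf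
      have := ((mem_riemannRochSpace_iff.mp hmem) P).resolve_left hf0
      rw [Finsupp.sub_apply, Finsupp.single_eq_same, hord] at this
      omega
  obtain ⟨f, hfV, hfix, hout⟩ := hRAT (riemannRochSpace B) (finite_riemannRochSpace h B) hstab s hs
  have hf0 : f ≠ 0 := by
    intro h0
    apply hout ⊥ (Finset.mem_insert_self _ _)
    rw [h0]
    exact Submodule.zero_mem _
  refine ⟨f, hf0, hfix, (nonneg_add_divOf_iff h B hf0).mpr hfV, ?_, ?_⟩
  · intro g hg
    rw [smul_add, hB g hg, smul_divOf, hfix g hg]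
  · intro P hP
    have hnot : f ∉ riemannRochSpace (B - Finsupp.single P 1) :=
      hout _ (Finset.mem_insert_of_mem (Finset.mem_image_of_mem _ hP))
    have hfV' : f ∈ riemannRochSpace (B - Finsupp.single P 1 + Finsupp.single P 1) := by
      rwa [sub_add_cancel]
    obtain ⟨-, hord⟩ := ord_eq_of_mem_add_single_of_not_mem hfV' hnot
    rw [Finsupp.sub_apply, Finsupp.single_eq_same] at hord
    rw [Finsupp.add_apply, divOf_apply, hord]
    ring

/-- **G3b.** Movable representatives: a `Γ`-fixed class is `[A' - Z]` with `A'`, `Z` effective,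
`Γ`-stable, of the same degree `≤ 3g`, with disjoint supports, avoiding a given finite set `S`. -/
theorem exists_moving (h : IsRRField K F) (Γ : Subgroup (SemilinearAut K F))
    (hRAT : GenericFixed Γ) (P0 : Place K F) (hP0 : ∀ g ∈ Γ, g • P0 = P0)
    (x : Pic0 K F) (hx : ∀ g ∈ Γ, g • x = x) (S : Finset (Place K F)) :
    ∃ A' Z : Divisor K F, 0 ≤ A' ∧ 0 ≤ Z ∧ Divisor.degree A' = Divisor.degree Z ∧
      Divisor.degree A' ≤ 3 * (genusFF K F : ℤ) ∧
      (∀ g ∈ Γ, g • A' = A') ∧ (∀ g ∈ Γ, g • Z = Z) ∧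
      (∀ P ∈ S, A' P = 0) ∧ (∀ P ∈ S, Z P = 0) ∧ (∀ P, A' P = 0 ∨ Z P = 0) ∧
      Rep (A' - Z) x := by
  classical
  obtain ⟨d, A, hdg, hA0, hdegA, -, -, hrep, hAstab, -⟩ := exists_canonical h Γ P0 hP0 x hx
  set m : ℕ := 2 * genusFF K F with hm
  have hP0stab : ∀ (n : ℕ), ∀ g ∈ Γ, g • (Finsupp.single P0 (n : ℤ) : Divisor K F)
      = Finsupp.single P0 (n : ℤ) := by
    intro n g hg
    rw [SemilinearAut.smul_single, hP0 g hg]
  -- first section
  have hB1stab : ∀ g ∈ Γ, g • (A + Finsupp.single P0 (m : ℤ)) = A + Finsupp.single P0 (m : ℤ) := by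
    intro g hg
    rw [smul_add, hAstab g hg, hP0stab m g hg]
  have hB1deg : Divisor.degree (A + Finsupp.single P0 (m : ℤ)) = d + m := by
    rw [map_add, hdegA, degree_single_nat h]
  obtain ⟨f, hf0, -, hA'0, hA'stab, hA'S⟩ := exists_fixed_section h Γ hRAT
    (A + Finsupp.single P0 (m : ℤ)) hB1stab (by rw [hB1deg, hm]; push_cast; linarith [Int.natCast_nonneg d]) S
  set A' := A + Finsupp.single P0 (m : ℤ) + divOf h f with hA'
  -- second section
  have hB2deg : Divisor.degree (Finsupp.single P0 ((d + m : ℕ) : ℤ) : Divisor K F) = (d + m : ℕ) :=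
    degree_single_nat h P0 (d + m)
  obtain ⟨β, hβ0, -, hZ0, hZstab, hZS⟩ := exists_fixed_section h Γ hRAT
    (Finsupp.single P0 ((d + m : ℕ) : ℤ)) (hP0stab (d + m))
    (by rw [hB2deg, hm]; push_cast; linarith [Int.natCast_nonneg d]) (S ∪ A'.support)
  set Z := Finsupp.single P0 ((d + m : ℕ) : ℤ) + divOf h β with hZ
  have hdegA' : Divisor.degree A' = d + m := by
    rw [hA', map_add (Divisor.degree) (A + Finsupp.single P0 (m : ℤ)) (divOf h f), hB1deg,
      degree_divOf, add_zero]
  have hdegZ : Divisor.degree Z = d + m := by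
    rw [hZ, map_add (Divisor.degree) (Finsupp.single P0 ((d + m : ℕ) : ℤ)) (divOf h β), hB2deg,
      degree_divOf, add_zero]
    push_cast
    ring
  refine ⟨A', Z, hA'0, hZ0, ?_, ?_, hA'stab, hZstab, hA'S,
    fun P hP => hZS P (Finset.mem_union_left _ hP), ?_, ?_⟩
  · rw [hdegA', hdegZ]
  · rw [hdegA', hm]
    push_cast
    have : (d : ℤ) ≤ genusFF K F := by exact_mod_cast hdg
    linarith
  · intro P
    by_cases hP : A' P = 0
    · exact Or.inl hP
    · exact Or.inr (hZS P (Finset.mem_union_right _ (Finsupp.mem_support_iff.mpr hP)))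
  · have h1 : A' - Z = (A - Finsupp.single P0 (d : ℤ)) + divOf h f - divOf h β := by
      rw [hA', hZ]
      have : (Finsupp.single P0 ((d + m : ℕ) : ℤ) : Divisor K F)
          = Finsupp.single P0 (d : ℤ) + Finsupp.single P0 (m : ℤ) := by
        rw [← Finsupp.single_add]
        push_cast
        rfl
      rw [this]
      abel
    rw [h1]
    exact (hrep.add_divOf h hf0).sub_divOf h hβ0

/-! ### the modular instance: `Γ` = image of `G_ℚ`, `x ∈ MW N` -/

section Modular

open ModularCurve

variable (N : ℕ) [NeZero N]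

/-- the image of `G_ℚ` in the semilinear automorphisms of `ℚ̄(X₀(N))`. -/
def galRange : Subgroup (SemilinearAut (AlgebraicClosure ℚ) (modularFunctionFieldBar N)) :=
  (arithmeticGalois (modularFunctionFieldFull N)).range

theorem smul_eq_of_mem_MW {x : JZero N} (hx : x ∈ MW N) : ∀ g ∈ galRange N, g • x = x := by
  rintro g ⟨σ, rfl⟩
  exact hx σ

/-- **G3a for `J₀(N)`**: the canonical divisor of a rational class, relative to a Galois-fixed
place `P0`. -/
theorem exists_canonical_MW
    (P0 : Place (AlgebraicClosure ℚ) (modularFunctionFieldBar N))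
    (hP0 : ∀ g ∈ galRange N, g • P0 = P0) {x : JZero N} (hx : x ∈ MW N) :
    ∃ (d : ℕ) (A : Divisor (AlgebraicClosure ℚ) (modularFunctionFieldBar N)),
      d ≤ genusFF (AlgebraicClosure ℚ) (modularFunctionFieldBar N) ∧ 0 ≤ A ∧
      Divisor.degree A = d ∧ A P0 = 0 ∧ ell A = 1 ∧
      Rep (A - Finsupp.single P0 (d : ℤ)) x ∧ (∀ g ∈ galRange N, g • A = A) ∧
      ∀ (d' : ℕ) (A' : Divisor (AlgebraicClosure ℚ) (modularFunctionFieldBar N)), 0 ≤ A' →
        Rep (A' - Finsupp.single P0 (d' : ℤ)) x → d ≤ d' ∧ (d' = d → A' = A) :=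
  exists_canonical (Fermat.Agent.RRMod.isRRField_bar N) (galRange N) P0 hP0 x
    (smul_eq_of_mem_MW N hx)

/-- **G3b for `J₀(N)`**: movable Galois-stable representatives of a rational class. -/
theorem exists_moving_MW (hRAT : GenericFixed (galRange N))
    (P0 : Place (AlgebraicClosure ℚ) (modularFunctionFieldBar N))
    (hP0 : ∀ g ∈ galRange N, g • P0 = P0) {x : JZero N} (hx : x ∈ MW N)
    (S : Finset (Place (AlgebraicClosure ℚ) (modularFunctionFieldBar N))) :
    ∃ A' Z : Divisor (AlgebraicClosure ℚ) (modularFunctionFieldBar N), 0 ≤ A' ∧ 0 ≤ Z ∧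
      Divisor.degree A' = Divisor.degree Z ∧
      Divisor.degree A' ≤ 3 * (genusFF (AlgebraicClosure ℚ) (modularFunctionFieldBar N) : ℤ) ∧
      (∀ g ∈ galRange N, g • A' = A') ∧ (∀ g ∈ galRange N, g • Z = Z) ∧
      (∀ P ∈ S, A' P = 0) ∧ (∀ P ∈ S, Z P = 0) ∧ (∀ P, A' P = 0 ∨ Z P = 0) ∧
      Rep (A' - Z) x :=
  exists_moving (Fermat.Agent.RRMod.isRRField_bar N) (galRange N) hRAT P0 hP0 x
    (smul_eq_of_mem_MW N hx) S

end Modular

end Fermat.Agent.S17.Move
end
end MergeWrap_S17_H_Move
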