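import Mathlib
import Fermat.Agent.MUL.S17.H.ImmCurve
import Fermat.Agent.MUL.S17.H.Move

section MergeWrap_S17_H_ImmSec -- from S17/H/ImmSec.lean

set_option autoImplicit false

/-!
# S17, package H, seat L3c: the leading term of a section is a unit

For `hφ : IsEmbBasis P₀ e φ`, `e ≥ 2g`, `f ≠ 0`, `π` a uniformizer at `P` and
`m = zdiv h P₀ e j f P` (the multiplicity of `P` in the zero divisor of the section `f`):

* `IsEmbBasis.ord_lead`    : `ord_P (f / (φ_pivot ^ j * π ^ m)) = 0`;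
* `IsEmbBasis.val_lead_ne_zero` : its value at `P` is not `0`;
* `IsEmbBasis.secSize_pos` : `0 < secSize 𝔸 v φ j P π m f`;
* `IsEmbBasis.zdiv_nonneg` : `0 ≤ zdiv h P₀ e j f P` for `f ∈ V_j`, `f ≠ 0`.
-/

noncomputable section

open AlgebraicCurve Fermat.Agent.RR

namespace Fermat.Agent.S17

variable {F : Type*} [Field F] [Algebra Qbar F]
variable {P₀ : Place Qbar F} {e r : ℕ} {φ : Fin (r + 1) → F}

theorem imm_ord_pow (P : Place Qbar F) (x : F) (n : ℕ) : P.ord (x ^ n) = n * P.ord x := by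
  have := P.ord_zpow x (n : ℤ)
  rwa [zpow_natCast] at this

theorem zdiv_apply (h : IsRRField Qbar F) (P₀ : Place Qbar F) (e j : ℕ) (f : F)
    (P : Place Qbar F) :
    zdiv h P₀ e j f P = P.ord f + (Finsupp.single P₀ ((j * e : ℕ) : ℤ)) P := by
  unfold zdiv
  rw [Finsupp.add_apply, divOf_apply]

theorem imm_single_mul (P₀ P : Place Qbar F) (e j : ℕ) :
    (Finsupp.single P₀ ((j * e : ℕ) : ℤ)) P = j * (Finsupp.single P₀ (e : ℤ)) P := by
  classical
  rw [Finsupp.single_apply, Finsupp.single_apply]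
  split_ifs
  · push_cast
    ring
  · ring

/-- the zero divisor of a section is effective -/
theorem zdiv_nonneg (h : IsRRField Qbar F) (P₀ : Place Qbar F) (e j : ℕ) {f : F}
    (hf : f ∈ secSpace P₀ e j) (hf0 : f ≠ 0) (P : Place Qbar F) :
    0 ≤ zdiv h P₀ e j f P := by
  rw [zdiv_apply]
  have := ((mem_riemannRochSpace_iff.mp hf) P).resolve_left hf0
  linarith

/-- the leading term of `f` at `P` has order `0` -/
theorem IsEmbBasis.ord_lead (hφ : IsEmbBasis P₀ e φ) (h : IsRRField Qbar F)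
    (he : 2 * genusFF Qbar F ≤ e) (j : ℕ) (P : Place Qbar F) {π : F} (hπ : P.ord π = 1)
    {f : F} (hf0 : f ≠ 0) (m : ℕ) (hm : (m : ℤ) = zdiv h P₀ e j f P) :
    P.ord (f / (φ (pivot φ P) ^ j * π ^ m)) = 0 := by
  have hπ0 : π ≠ 0 := by
    rintro rfl
    rw [P.ord_zero] at hπ
    exact zero_ne_one hπ
  have hp0 : φ (pivot φ P) ≠ 0 := hφ.ne_zero _
  rw [imm_ord_div P hf0 (mul_ne_zero (pow_ne_zero _ hp0) (pow_ne_zero _ hπ0)),
    P.ord_mul (pow_ne_zero _ hp0) (pow_ne_zero _ hπ0), imm_ord_pow, imm_ord_pow,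
    hφ.ord_pivot h he P, hπ, hm, zdiv_apply, imm_single_mul]
  ring

theorem IsEmbBasis.val_lead_ne_zero (hφ : IsEmbBasis P₀ e φ) (h : IsRRField Qbar F)
    (he : 2 * genusFF Qbar F ≤ e) (j : ℕ) (P : Place Qbar F) {π : F} (hπ : P.ord π = 1)
    {f : F} (hf0 : f ≠ 0) (m : ℕ) (hm : (m : ℤ) = zdiv h P₀ e j f P) :
    val P (f / (φ (pivot φ P) ^ j * π ^ m)) ≠ 0 := by
  have hπ0 : π ≠ 0 := by
    rintro rfl
    rw [P.ord_zero] at hπ
    exact zero_ne_one hπ
  exact Pts.ev_ne_zero_of_ord_eq_zero h P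
    (div_ne_zero hf0 (mul_ne_zero (pow_ne_zero _ (hφ.ne_zero _)) (pow_ne_zero _ hπ0)))
    (hφ.ord_lead h he j P hπ hf0 m hm)

/-- the size of the leading term of a nonzero section is positive -/
theorem IsEmbBasis.secSize_pos (hφ : IsEmbBasis P₀ e φ) (h : IsRRField Qbar F)
    (he : 2 * genusFF Qbar F ≤ e) (𝔸 : AbsSys) (v : 𝔸.ι) (j : ℕ) (P : Place Qbar F) {π : F}
    (hπ : P.ord π = 1) {f : F} (hf0 : f ≠ 0) (m : ℕ) (hm : (m : ℤ) = zdiv h P₀ e j f P) :
    0 < secSize 𝔸 v φ j P π m f := by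
  unfold secSize
  exact div_pos ((𝔸.abv v).pos (hφ.val_lead_ne_zero h he j P hπ hf0 m hm))
    (pow_pos (hφ.vnorm_coord_pos 𝔸 v P) j)

/-- explicit value of the pivot order -/
theorem IsEmbBasis.ord_pivot_base (hφ : IsEmbBasis P₀ e φ) (h : IsRRField Qbar F)
    (he : 2 * genusFF Qbar F ≤ e) : P₀.ord (φ (pivot φ P₀)) = -(e : ℤ) := by
  rw [hφ.ord_pivot h he P₀, Finsupp.single_eq_same]

theorem IsEmbBasis.ord_pivot_of_ne (hφ : IsEmbBasis P₀ e φ) (h : IsRRField Qbar F)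
    (he : 2 * genusFF Qbar F ≤ e) {P : Place Qbar F} (hP : P ≠ P₀) :
    P.ord (φ (pivot φ P)) = 0 := by
  classical
  rw [hφ.ord_pivot h he P, Finsupp.single_apply, if_neg (Ne.symm hP), neg_zero]

end Fermat.Agent.S17
end
end MergeWrap_S17_H_ImmSec
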